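import Fermat.Agent.Lib.RR.H443.Bridge
import Fermat.Agent.S17.H377.LangPlace

/-!
# S17 / tower H, leaf (G1): the points of the projective cone of a curve are places

`K` algebraically closed, `F / K` a function field of one variable, `x : ι → F` any family of
functions (in the application: a basis of `L(m ∞)`).  A point `y : ι → K` lies *on the cone* of
`x` if it satisfies every homogeneous polynomial relation of `x`.

`exists_place_of_onCone` : if `y` is on the cone and `y j ≠ 0`, then `x j ≠ 0` and there is a place
`P` of `F` at which every `x i / x j` is regular with value `y i / y j`; i.e. `y` is (a scalar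
multiple of) the coordinate vector of `P`.

This is the geometric input needed to apply the Nullstellensatz certificate `H500.NullCert`
"on the curve" (and, slot by slot, on `C^m`): the cone cut out by the homogeneous relations has no
points besides the places.  Proof: homogenise relations, Lang's place extension theorem
(`H377.exists_isKPlace_extends`), every valuation ring of `F / K` is a place (`H443`).
-/

set_option autoImplicit false

noncomputable section

namespace Fermat.Agent.S17.H710

open AlgebraicCurve MvPolynomial IntermediateField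

variable {K F : Type*} [Field K] [Field F] [Algebra K F] {ι : Type*}

/-- `y` satisfies all homogeneous relations of the family `x`. -/
def OnCone (x : ι → F) (y : ι → K) : Prop :=
  ∀ (d : ℕ) (G : MvPolynomial ι K), G.IsHomogeneous d → aeval x G = 0 → eval y G = 0

/-- Evaluation of a homogeneous polynomial at a rescaled point. -/
theorem aeval_mul_of_isHomogeneous {S : Type*} [CommRing S] [Algebra K S]
    {p : MvPolynomial ι K} {N : ℕ} (hp : p.IsHomogeneous N) (c : S) (z : ι → S) :
    aeval (fun i => c * z i) p = c ^ N * aeval z p := by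
  rw [aeval_def, aeval_def, eval₂_eq, eval₂_eq, Finset.mul_sum]
  refine Finset.sum_congr rfl fun m hm => ?_
  have hdeg : N = ∑ i ∈ m.support, m i := hp.degree_eq_sum_deg_support hm
  have : ∏ i ∈ m.support, (c * z i) ^ m i = c ^ N * ∏ i ∈ m.support, z i ^ m i := by
    simp_rw [mul_pow]
    rw [Finset.prod_mul_distrib, Finset.prod_pow_eq_pow_sum, ← hdeg]
  rw [this]
  ring

/-- The homogenisation of `R` in degree `d` with respect to the variable `j`. -/
def homogenizeAt (j : ι) (d : ℕ) (R : MvPolynomial ι K) : MvPolynomial ι K :=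
  ∑ k ∈ Finset.range (d + 1), homogeneousComponent k R * X j ^ (d - k)

theorem homogenizeAt_isHomogeneous (j : ι) (d : ℕ) (R : MvPolynomial ι K) :
    (homogenizeAt j d R).IsHomogeneous d := by
  unfold homogenizeAt
  refine IsHomogeneous.sum _ _ _ fun k hk => ?_
  have hk' : k ≤ d := Nat.lt_succ_iff.mp (Finset.mem_range.mp hk)
  have h1 := (homogeneousComponent_isHomogeneous k R).mul (isHomogeneous_X_pow (R := K) j (d - k))
  have : k + (d - k) = d := by omega
  rwa [this] at h1

/-- Value of the homogenisation at a point with invertible `j`-th coordinate. -/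
theorem aeval_homogenizeAt {S : Type*} [Field S] [Algebra K S] (j : ι) (d : ℕ)
    (R : MvPolynomial ι K) (hR : R.totalDegree ≤ d) (z : ι → S) (hz : z j ≠ 0) :
    aeval z (homogenizeAt j d R) = z j ^ d * aeval (fun i => z i / z j) R := by
  have hsum : R = ∑ k ∈ Finset.range (d + 1), homogeneousComponent k R := by
    conv_lhs => rw [← sum_homogeneousComponent R]
    refine Finset.sum_subset ?_ ?_
    · intro k hk
      simp only [Finset.mem_range] at hk ⊢
      omega
    · intro k _ hk
      simp only [Finset.mem_range, not_lt] at hk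
      exact homogeneousComponent_eq_zero _ _ (by omega)
  have hz' : (fun i => z j * (z i / z j)) = z := by
    funext i
    field_simp
  conv_rhs => rw [hsum]
  unfold homogenizeAt
  simp only [map_sum, map_mul, map_pow, aeval_X, Finset.mul_sum]
  refine Finset.sum_congr rfl fun k hk => ?_
  have hk' : k ≤ d := Nat.lt_succ_iff.mp (Finset.mem_range.mp hk)
  have h1 := aeval_mul_of_isHomogeneous (homogeneousComponent_isHomogeneous k R) (z j)
    (fun i => z i / z j)
  rw [hz'] at h1
  rw [h1]
  have : z j ^ d = z j ^ k * z j ^ (d - k) := by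
    rw [← pow_add]
    congr 1
    omega
  rw [this]
  ring

variable [IsAlgClosed K]

/-- **(G1)** A point of the cone of `x` is the coordinate vector of a place. -/
theorem exists_place_of_onCone {t : F} (ht : Transcendental K t) [FiniteDimensional K⟮t⟯ F]
    (x : ι → F) (y : ι → K) (hy : OnCone x y) (j : ι) (hj : y j ≠ 0) :
    x j ≠ 0 ∧ ∃ P : Place K F, ∀ i,
      x i / x j - algebraMap K F (y i / y j) ∈ P.toValuationSubring.nonunits := by
  classical
  -- `x j ≠ 0`
  have hxj : x j ≠ 0 := by
    intro h0
    apply hj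
    have := hy 1 (X j) (isHomogeneous_X K j) (by simp [h0])
    simpa using this
  refine ⟨hxj, ?_⟩
  -- the chart
  let ψ : MvPolynomial ι K →ₐ[K] F := aeval (fun i => x i / x j)
  let χ : MvPolynomial ι K →ₐ[K] K := aeval (fun i => y i / y j)
  have hker : ∀ R : MvPolynomial ι K, ψ R = 0 → χ R = 0 := by
    intro R hR
    have h1 : aeval x (homogenizeAt j R.totalDegree R) = 0 := by
      rw [aeval_homogenizeAt j _ R le_rfl x hxj]
      show _ * ψ R = 0
      rw [hR, mul_zero]
    have h2 := hy _ _ (homogenizeAt_isHomogeneous j R.totalDegree R) h1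
    have h3 : aeval y (homogenizeAt j R.totalDegree R) = 0 := by
      rw [← h2, MvPolynomial.aeval_eq_eval]
    rw [aeval_homogenizeAt j _ R le_rfl y hj] at h3
    rcases mul_eq_zero.mp h3 with h | h
    · exact absurd h (pow_ne_zero _ hj)
    · exact h
  -- the induced hom on the range
  let B : Subalgebra K F := ψ.range
  have hφ : ∃ φ : B →ₐ[K] K, ∀ R : MvPolynomial ι K, φ ⟨ψ R, ⟨R, rfl⟩⟩ = χ R := by
    have hk : RingHom.ker (ψ.rangeRestrict : MvPolynomial ι K →+* B) ≤ RingHom.ker (χ : MvPolynomial ι K →+* K) := by
      intro R hR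
      rw [RingHom.mem_ker] at hR ⊢
      apply hker
      have := congrArg Subtype.val hR
      simpa using this
    refine ⟨AlgHom.liftOfSurjective ψ.rangeRestrict ψ.rangeRestrict_surjective χ hk, fun R => ?_⟩
    exact AlgHom.liftOfSurjective_apply ψ.rangeRestrict ψ.rangeRestrict_surjective χ hk R
  obtain ⟨φ, hφ⟩ := hφ
  obtain ⟨V, π, hVπ, hext⟩ := H377.exists_isKPlace_extends (K := K) B φ
  -- `V ≠ ⊤`
  have hV : V ≠ ⊤ := by
    intro htop
    have hall : ∀ z : F, z ∈ V := fun z => htop ▸ ValuationSubring.mem_top z
    have h0 := hVπ.sub_mem_maximalIdeal ⟨t, hall t⟩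
    set c : K := π ⟨t, hall t⟩ with hc
    have hne : t - algebraMap K F c ≠ 0 := by
      intro h
      apply ht
      rw [sub_eq_zero.mp h]
      exact isAlgebraic_algebraMap c
    have hu : IsUnit ((⟨t, hall t⟩ : V) - ⟨algebraMap K F c, hVπ.algebraMap_mem c⟩) := by
      rw [isUnit_iff_exists_inv]
      refine ⟨⟨(t - algebraMap K F c)⁻¹, hall _⟩, Subtype.ext ?_⟩
      show (t - algebraMap K F c) * (t - algebraMap K F c)⁻¹ = 1
      exact mul_inv_cancel₀ hne
    exact (IsLocalRing.mem_maximalIdeal _).mp h0 hu
  obtain ⟨P, hP⟩ := Fermat.Agent.Lib.RR.H443.exists_place_eq V hVπ.algebraMap_mem hV ht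
  refine ⟨P, fun i => ?_⟩
  have hb : ψ (X i) = x i / x j := by simp [ψ]
  obtain ⟨hmem, hval⟩ := hext ⟨ψ (X i), ⟨X i, rfl⟩⟩
  have hval' : π ⟨ψ (X i), hmem⟩ = y i / y j := by
    rw [hval, hφ]
    simp [χ]
  have h0 := hVπ.sub_mem_maximalIdeal ⟨ψ (X i), hmem⟩
  rw [hval'] at h0
  rw [hP]
  have : (x i / x j - algebraMap K F (y i / y j)) =
      ((⟨ψ (X i), hmem⟩ - ⟨algebraMap K F (y i / y j), hVπ.algebraMap_mem _⟩ : V) : F) := by
    simp [hb]
  rw [this]
  exact ValuationSubring.coe_mem_nonunits_iff.mpr h0

end Fermat.Agent.S17.H710
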